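import Fermat.Statements.S49
import Fermat.Agent.Eigenform.Lifting

set_option autoImplicit false
open CuspForm EisensteinWeightOne CongruenceSubgroup ModularFormClass
open FLT FLT.AbstractIntegralStructure

namespace Fermat.Agent.S49

open Fermat.Agent.Eigenform

theorem hasIntegralStructure_of_hasIntegralBasis {N : ℕ} (h : CuspForm.HasIntegralBasis N) :
    CuspForm.HasIntegralStructure N 2 := by
  rw [CuspForm.HasIntegralStructure, eq_top_iff, ← h]
  refine Submodule.span_mono ?_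
  intro f hf
  refine Submodule.subset_span fun n => ?_
  obtain ⟨m, hm⟩ := Subring.mem_bot.mp (hf n)
  exact ⟨m, hm.symm⟩

/-- Multiplying by the weight-one Eisenstein series does not change a `q`-expansion mod 3. -/
theorem three_dvd_bridgeProduct_sub (a : ℕ → ℤ) (n : ℕ) :
    (3 : ℤ) ∣ (bridgeProduct a).coeff n - a n := by
  have h6 : ∀ j : ℕ, j ≠ 0 → (3 : ℤ) ∣ (e1Chi3In ℤ).coeff j := by
    intro j hj
    have : (e1Chi3In ℤ).coeff j = 6 * sigmaChi j := by
      simp [e1Chi3In, e1Chi3, hj]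
    rw [this]
    exact ⟨2 * sigmaChi j, by ring⟩
  have h0 : (e1Chi3In ℤ).coeff 0 = 1 := by
    simp [e1Chi3In, e1Chi3]
  rw [bridgeProduct, PowerSeries.coeff_mul]
  have hmem : ((n, 0) : ℕ × ℕ) ∈ Finset.HasAntidiagonal.antidiagonal n :=
    Finset.HasAntidiagonal.mem_antidiagonal.mpr (add_zero n)
  rw [← Finset.add_sum_erase _ _ hmem]
  rw [h0, PowerSeries.coeff_mk, mul_one, add_sub_cancel_left]
  refine Finset.dvd_sum fun x hx => ?_
  rw [Finset.mem_erase, Finset.HasAntidiagonal.mem_antidiagonal] at hx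
  refine Dvd.dvd.mul_left (h6 x.2 ?_) _
  intro h2
  apply hx.1
  rw [Prod.ext_iff]
  refine ⟨?_, h2⟩
  have := hx.2
  rw [h2, add_zero] at this
  exact this

theorem three_dvd_chiNegThree_sub (ℓ : ℕ) : (3 : ℤ) ∣ chiNegThree ℓ - (ℓ : ℤ) := by
  unfold chiNegThree
  split_ifs <;> omega

/-- A cusp form whose coefficients are all integers divisible by `3` is `3` times an integral
one. -/
theorem exists_three_smul {N : ℕ} (g : CuspForm (Gamma0 N) 2)
    (hg : ∀ n, ∃ m : ℤ, (3 : ℤ) ∣ m ∧ qCoeff g n = (m : ℂ)) :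
    ∃ g' ∈ CuspForm.intLattice N 2, g = (3 : ℤ) • g' := by
  refine ⟨(3 : ℂ)⁻¹ • g, Submodule.subset_span fun n => ?_, ?_⟩
  · obtain ⟨m, ⟨k, rfl⟩, hm⟩ := hg n
    refine ⟨k, ?_⟩
    rw [qCoeff_smul, hm]
    push_cast
    ring
  · rw [← Int.cast_smul_eq_zsmul ℂ, smul_smul]
    norm_num

theorem result
    {N : ℕ} [NeZero N] (h : CuspForm.HasIntegralBasis N) {a : ℕ → ℤ}
    (heig : FormalHecke.IsEigensystem
      (fun ℓ => if ℓ ∣ N then 0 else ((chiNegThree ℓ : ℤ) : ℤ)) a)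
    (hreal : CuspForm.IsLatticeRealized N a) :
    ∃ (f : CuspForm (Gamma0 N) 2) (_ : f.IsNormalizedEigenform)
      (𝔪' : Ideal (integralClosure ℤ ℂ)), 𝔪'.IsMaximal ∧
      ((3 : ℕ) : integralClosure ℤ ℂ) ∈ 𝔪' ∧
      ∀ (ℓ : ℕ) (_ : ℓ.Prime) (_ : ¬ ℓ ∣ N),
        ∃ c : integralClosure ℤ ℂ, (c : ℂ) = ModularFormClass.qCoeff f ℓ ∧
          c - (a ℓ : integralClosure ℤ ℂ) ∈ 𝔪' := by
  have hint := hasIntegralStructure_of_hasIntegralBasis h
  obtain ⟨f₀, hf₀, af, haf, haf3⟩ := hreal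
  have hf₀L : f₀ ∈ CuspForm.intLattice N 2 := by
    refine Submodule.subset_span fun n => ⟨af n, (haf n).symm⟩
  have hcong : ∀ n, (3 : ℤ) ∣ af n - a n := fun n => by
    have := (haf3 n).add (three_dvd_bridgeProduct_sub a n)
    rwa [sub_add_sub_cancel] at this
  -- the ideal of Hecke operators killing `f₀` modulo 3
  let I : Ideal (heckeAlgebra N 2 (∅ : Set ℕ)) :=
    { carrier := {t | ∃ g ∈ CuspForm.intLattice N 2,
        (t : Module.End ℂ (CuspForm (Gamma0 N) 2)) f₀ = (3 : ℤ) • g}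
      add_mem' := by
        rintro s t ⟨g, hg, hs⟩ ⟨g', hg', ht⟩
        refine ⟨g + g', add_mem hg hg', ?_⟩
        rw [smul_add, ← hs, ← ht]
        rfl
      zero_mem' := ⟨0, zero_mem _, by rw [smul_zero]; rfl⟩
      smul_mem' := by
        rintro s t ⟨g, hg, ht⟩
        refine ⟨(s : Module.End ℂ (CuspForm (Gamma0 N) 2)) g,
          CuspForm.mem_intLattice_of_mem_heckeAlgebra one_le_two s.2 hg, ?_⟩
        have : ((s • t : heckeAlgebra N 2 (∅ : Set ℕ)) :
            Module.End ℂ (CuspForm (Gamma0 N) 2)) f₀ =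
            (s : Module.End ℂ (CuspForm (Gamma0 N) 2))
              ((t : Module.End ℂ (CuspForm (Gamma0 N) 2)) f₀) := rfl
        rw [this, ht, map_zsmul] }
  have hI : I ≠ ⊤ := by
    rw [Ne, Ideal.eq_top_iff_one]
    rintro ⟨g, hg, h1⟩
    have h2 : f₀ = (3 : ℤ) • g := h1
    have h3 : qCoeff f₀ 1 = 3 * qCoeff g 1 := by
      rw [h2, qCoeff_zsmul]; norm_num
    obtain ⟨m, hm⟩ := (P2MW.S_CuspForm_intLattice_fg.W3WsD.mem_intLattice_iff g).mp hg 1
    rw [← haf 1, hm] at h3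
    have h4 : af 1 = 3 * m := by exact_mod_cast h3
    have h5 := hcong 1
    rw [h4, heig.1] at h5
    omega
  obtain ⟨m, hm, hIm⟩ := Ideal.exists_le_maximal I hI
  obtain ⟨f, χ, M, hf, -, hfT, -, hM, hMm⟩ := exists_eigenform_of_isMaximal hint m
  refine ⟨f, hf, M, hM, ?_, ?_⟩
  · have h3 : ((3 : ℕ) : heckeAlgebra N 2 (∅ : Set ℕ)) ∈ m := by
      apply hIm
      refine ⟨f₀, hf₀L, ?_⟩
      have : ((3 : ℕ) : heckeAlgebra N 2 (∅ : Set ℕ)) =
          (3 : ℤ) • (1 : heckeAlgebra N 2 (∅ : Set ℕ)) := by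
        rw [zsmul_one]; norm_num
      rw [this]
      rfl
    rw [← hMm, Ideal.mem_comap, map_natCast] at h3
    exact h3
  · intro ℓ hℓ hℓN
    refine ⟨χ (heckeAlgebra.T hℓ hℓN (Set.notMem_empty _)), hfT ℓ hℓ hℓN, ?_⟩
    have h3 : heckeAlgebra.T hℓ hℓN (Set.notMem_empty _) -
        ((a ℓ : ℤ) : heckeAlgebra N 2 (∅ : Set ℕ)) ∈ m := by
      apply hIm
      obtain ⟨g, hg, hge⟩ := exists_three_smul
        (heckeTLin 2 hℓ hℓN f₀ - (a ℓ) • f₀) (fun n => by
          refine ⟨af (n * ℓ) + (if ℓ ∣ n then (ℓ : ℤ) * af (n / ℓ) else 0) - a ℓ * af n, ?_, ?_⟩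
          · have h1 := heig.2 ℓ hℓ n
            simp only [if_neg hℓN] at h1
            rw [mul_comm ℓ n] at h1
            obtain ⟨c1, hc1⟩ := hcong (n * ℓ)
            obtain ⟨c2, hc2⟩ := hcong n
            obtain ⟨c3, hc3⟩ := three_dvd_chiNegThree_sub ℓ
            obtain ⟨c4, hc4⟩ := hcong (n / ℓ)
            have e1 : af (n * ℓ) = a (n * ℓ) + 3 * c1 := by linarith
            have e2 : af n = a n + 3 * c2 := by linarith
            have e3 : chiNegThree ℓ = ℓ + 3 * c3 := by linarith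
            have e4 : af (n / ℓ) = a (n / ℓ) + 3 * c4 := by linarith
            rw [e1, e2, e4]
            rw [e3] at h1
            by_cases hd : ℓ ∣ n
            · rw [if_pos hd] at h1 ⊢
              exact ⟨c1 + ℓ * c4 - a ℓ * c2 - c3 * a (n / ℓ), by linear_combination h1⟩
            · rw [if_neg hd] at h1 ⊢
              exact ⟨c1 - a ℓ * c2, by linear_combination h1⟩
          · rw [qCoeff_sub, qCoeff_heckeTLin, qCoeff_zsmul, ModularForm.coeffHeckeT_apply]
            simp only [← haf]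
            split_ifs <;> push_cast <;> norm_num)
      refine ⟨g, hg, ?_⟩
      rw [← hge]
      have : (((a ℓ : ℤ) : heckeAlgebra N 2 (∅ : Set ℕ))) =
          (a ℓ) • (1 : heckeAlgebra N 2 (∅ : Set ℕ)) := by
        rw [zsmul_one]
      rw [this]
      rfl
    rw [← hMm, Ideal.mem_comap, map_sub, map_intCast] at h3
    exact h3

end Fermat.Agent.S49
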