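import Fermat.Statements.S51
import Fermat.Agent.X015.Galois

set_option autoImplicit false
open WeierstrassCurve WeierstrassCurve.Affine WeierstrassCurve.Affine.Point
open CuspForm ModularFormClass UpperHalfPlane
open WeierstrassCurve

namespace Fermat.Agent.S51

theorem result (W : WeierstrassCurve ℤ) (hΔ : W.Δ ≠ 0) (hW : W.IsSemistableModel) : W.ModRepIsIrreducible 3 ∨ W.ModRepIsIrreducible 5 := by
  by_contra hcon
  push Not at hcon
  obtain ⟨h3, h5⟩ := hcon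
  have hΔ' : (W.map (Int.castRingHom ℚ)).Δ ≠ 0 := by
    rw [map_Δ]
    simpa using hΔ
  obtain ⟨x₀, hx₀⟩ := Fermat.Agent.X015.exists_rat_root_three _ hΔ' h3
  obtain ⟨s, p, hw, ha, hb⟩ := Fermat.Agent.X015.exists_rat_pair_five _ hΔ' h5
  unfold Fermat.Agent.X015.P3 at hx₀
  refine Fermat.Agent.X015.no_three_five (C := W.c₄) (D := W.Δ) hΔ (hW 5 (by norm_num))
    (W.map (Int.castRingHom ℚ)).b_relation ?_ ?_ hx₀ hw ha hb
  · have : (W.map (Int.castRingHom ℚ)).c₄ = ((W.c₄ : ℤ) : ℚ) := map_c₄ ..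
    rw [← this]; rfl
  · have : (W.map (Int.castRingHom ℚ)).Δ = ((W.Δ : ℤ) : ℚ) := map_Δ ..
    rw [← this]; rfl

end Fermat.Agent.S51
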