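import Fermat.Statements.S02

set_option autoImplicit false
open FreyPackage

namespace Fermat.Agent.S02

/-- From a solution with `gcd a b = 1` and `b` even. -/
private lemma of_even (a b c : ℤ) (ha : a ≠ 0) (hb : b ≠ 0) (hc : c ≠ 0) (p : ℕ) (pp : p.Prime)
    (hp5 : 5 ≤ p) (H : a ^ p + b ^ p = c ^ p) (hgcd : gcd a b = 1) (hb2 : (2 : ℤ) ∣ b) :
    Nonempty FreyPackage := by
  have hodd : Odd p := pp.odd_of_ne_two (by omega)
  have ha2 : ¬ (2 : ℤ) ∣ a := by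
    intro h
    have : (2 : ℤ) ∣ gcd a b := dvd_gcd h hb2
    rw [hgcd] at this
    omega
  have hb2' : (b : ZMod 2) = 0 := (ZMod.intCast_zmod_eq_zero_iff_dvd b 2).2 hb2
  have h4 : a % 4 = 1 ∨ a % 4 = 3 := by omega
  rcases h4 with h4 | h4
  · refine ⟨{ a := -a, b := -b, c := -c, ha0 := neg_ne_zero.2 ha, hb0 := neg_ne_zero.2 hb,
              hc0 := neg_ne_zero.2 hc, p := p, pp := pp, hp5 := hp5, hFLT := ?_, hgcdab := ?_,
              ha4 := ?_, hb2 := ?_ }⟩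
    · rw [hodd.neg_pow, hodd.neg_pow, hodd.neg_pow, ← H]; ring
    · change ((Int.gcd (-a) (-b) : ℕ) : ℤ) = 1
      change ((Int.gcd a b : ℕ) : ℤ) = 1 at hgcd
      rw [Int.neg_gcd, Int.gcd_neg]; exact hgcd
    · have : ((-a : ℤ) : ZMod 4) = ((3 : ℤ) : ZMod 4) := by
        rw [ZMod.intCast_eq_intCast_iff]
        change (-a) % 4 = 3 % 4
        omega
      simpa using this
    · rw [Int.cast_neg, hb2', neg_zero]
  · refine ⟨{ a := a, b := b, c := c, ha0 := ha, hb0 := hb, hc0 := hc, p := p, pp := pp,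
              hp5 := hp5, hFLT := H, hgcdab := hgcd, ha4 := ?_, hb2 := hb2' }⟩
    have : ((a : ℤ) : ZMod 4) = ((3 : ℤ) : ZMod 4) := by
      rw [ZMod.intCast_eq_intCast_iff]
      change a % 4 = 3 % 4
      omega
    simpa using this

private lemma of_coprime (a b c : ℤ) (ha : a ≠ 0) (hb : b ≠ 0) (hc : c ≠ 0) (p : ℕ) (pp : p.Prime)
    (hp5 : 5 ≤ p) (H : a ^ p + b ^ p = c ^ p) (hgcd : gcd a b = 1) : Nonempty FreyPackage := by
  have hodd : Odd p := pp.odd_of_ne_two (by omega)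
  by_cases hb2 : (2 : ℤ) ∣ b
  · exact of_even a b c ha hb hc p pp hp5 H hgcd hb2
  by_cases ha2 : (2 : ℤ) ∣ a
  · exact of_even b a c hb ha hc p pp hp5 (by rw [← H]; ring) (by rw [gcd_comm]; exact hgcd) ha2
  have hc2 : (2 : ℤ) ∣ c := by
    have h2 : Prime (2 : ℤ) := Int.prime_two
    apply h2.dvd_of_dvd_pow (n := p)
    rw [← H]
    have ho1 : Odd (a ^ p) := (Int.not_even_iff_odd.1 (by rwa [even_iff_two_dvd])).pow
    have ho2 : Odd (b ^ p) := (Int.not_even_iff_odd.1 (by rwa [even_iff_two_dvd])).pow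
    exact (ho1.add_odd ho2).two_dvd
  -- `(-b)^p + c^p = a^p`
  refine of_even (-b) c a (neg_ne_zero.2 hb) hc ha p pp hp5 ?_ ?_ hc2
  · rw [hodd.neg_pow, ← H]; ring
  · have h1 : gcd b a = gcd b c := FreyPackage.gcdab_eq_gcdac pp.pos (a := b) (b := a) (c := c)
      (by rw [← H]; ring)
    rw [gcd_comm] at h1
    change ((Int.gcd (-b) c : ℕ) : ℤ) = 1
    rw [Int.neg_gcd]
    change gcd b c = 1
    rw [← h1, hgcd]

theorem result (a b c : ℤ) (ha : a ≠ 0) (hb : b ≠ 0) (hc : c ≠ 0) (p : ℕ) (pp : p.Prime) (hp5 : 5 ≤ p) (H : a ^ p + b ^ p = c ^ p) : Nonempty FreyPackage := by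
  obtain ⟨a', b', hcop, ha', hb'⟩ : ∃ a' b' : ℤ, gcd a' b' = 1 ∧ a = gcd a b * a' ∧ b = gcd a b * b' := by
    obtain ⟨a', ha'⟩ := gcd_dvd_left a b
    obtain ⟨b', hb'⟩ := gcd_dvd_right a b
    refine ⟨a', b', ?_, ha', hb'⟩
    have hd : gcd a b ≠ 0 := fun h => ha (by rw [ha', h, zero_mul])
    have h1 : gcd (gcd a b * a') (gcd a b * b') = normalize (gcd a b) * gcd a' b' := gcd_mul_left _ _ _
    rw [← ha', ← hb', normalize_gcd] at h1
    exact (mul_left_cancel₀ hd (by rw [mul_one]; exact h1)).symm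
  set d := gcd a b with hd
  have hd0 : d ≠ 0 := fun h => ha (by rw [ha', h, zero_mul])
  have hdc : d ∣ c := by
    rw [← Int.pow_dvd_pow_iff pp.ne_zero, ← H]
    apply dvd_add
    · rw [ha', mul_pow]; exact Dvd.intro _ rfl
    · rw [hb', mul_pow]; exact Dvd.intro _ rfl
  obtain ⟨c', hc'⟩ := hdc
  have H' : a' ^ p + b' ^ p = c' ^ p := by
    have hdp : d ^ p ≠ 0 := pow_ne_zero _ hd0
    apply mul_left_cancel₀ hdp
    rw [mul_add, ← mul_pow, ← mul_pow, ← mul_pow, ← ha', ← hb', ← hc', H]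
  refine of_coprime a' b' c' ?_ ?_ ?_ p pp hp5 H' hcop
  · rintro rfl; exact ha (by rw [ha', mul_zero])
  · rintro rfl; exact hb (by rw [hb', mul_zero])
  · rintro rfl; exact hc (by rw [hc', mul_zero])

end Fermat.Agent.S02
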