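import Fermat.Statements.S05
import Fermat.Agent.EC.Unramified

set_option autoImplicit false

namespace Fermat.Agent.EC.Frey

open WeierstrassCurve WeierstrassCurve.Affine WeierstrassCurve.Affine.Point

local notation "Qbar" => AlgebraicClosure ℚ

variable {A : ValuationSubring (AlgebraicClosure ℚ)} {q : ℕ}

theorem v_intCast_eq_one (hq : q.Prime) (hA : A.LiesOverPrime q) {n : ℤ}
    (hn : ¬ (q : ℤ) ∣ n) : A.valuation (n : Qbar) = 1 := by
  have hq' : Prime (q : ℤ) := Nat.prime_iff_prime_int.mp hq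
  obtain ⟨a, b, hab⟩ := (hq'.coprime_iff_not_dvd.mpr hn)
  have hvq : A.valuation ((q : ℤ) : Qbar) < 1 := by
    have h := (ValuationSubring.mem_nonunits_iff A).mp hA
    simpa using h
  refine le_antisymm (v_intCast_le_one _ n) ?_
  by_contra hlt
  rw [not_le] at hlt
  have h1 : ((a * (q : ℤ) + b * n : ℤ) : Qbar) = 1 := by rw [hab]; norm_num
  have h2 : A.valuation ((a * (q : ℤ) + b * n : ℤ) : Qbar) < 1 := by
    push_cast
    refine v_add_lt_one _ (v_mul_lt_one _ (v_intCast_le_one _ a) ?_)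
      (v_mul_lt_one _ (v_intCast_le_one _ b) hlt)
    simpa using hvq
  rw [h1, map_one] at h2
  exact lt_irrefl _ h2

theorem frey_smul_eq (P : FreyPackage) (hq : q.Prime) (hq2 : q ≠ 2) (hqp : q ≠ P.p)
    (hA : A.LiesOverPrime q) {σ : Qbar ≃ₐ[ℚ] Qbar} (hσ : σ ∈ A.inertiaSubgroupIn ℚ)
    (x : (P.freyCurve⁄Qbar).Point) (hx : P.p • x = 0) : σ • x = x := by
  have hq' : Prime (q : ℤ) := Nat.prime_iff_prime_int.mp hq
  have h2v : A.valuation (2 : Qbar) = 1 := by
    have := v_intCast_eq_one hq hA (n := 2) (by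
      intro hd
      have : q ∣ 2 := by exact_mod_cast hd
      exact hq2 ((Nat.prime_dvd_prime_iff_eq hq Nat.prime_two).mp this))
    simpa using this
  have hv4 : A.valuation (4 : Qbar) = 1 := by
    have : (4 : Qbar) = 2 * 2 := by norm_num
    rw [this, map_mul, h2v, mul_one]
  have hv16 : A.valuation (16 : Qbar) = 1 := by
    have : (16 : Qbar) = 4 * 4 := by norm_num
    rw [this, map_mul, hv4, mul_one]
  have hvp : A.valuation ((P.p : ℕ) : Qbar) = 1 := by
    have := v_intCast_eq_one hq hA (n := P.p) (by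
      intro hd
      have : q ∣ P.p := by exact_mod_cast hd
      exact hqp ((Nat.prime_dvd_prime_iff_eq hq P.pp).mp this))
    simpa using this
  -- coefficients
  have ea1 : (P.freyCurve⁄Qbar).a₁ = 1 := by
    change algebraMap ℚ Qbar 1 = 1
    exact map_one _
  have ea2 : (P.freyCurve⁄Qbar).a₂ = ((P.b : Qbar) ^ P.p - 1 - (P.a : Qbar) ^ P.p) / 4 := by
    change algebraMap ℚ Qbar (((P.b : ℚ) ^ P.p - 1 - (P.a : ℚ) ^ P.p) / 4) = _
    simp
  have ea3 : (P.freyCurve⁄Qbar).a₃ = 0 := by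
    change algebraMap ℚ Qbar 0 = 0
    exact map_zero _
  have ea4 : (P.freyCurve⁄Qbar).a₄ = -((P.a : Qbar) ^ P.p) * (P.b : Qbar) ^ P.p / 16 := by
    change algebraMap ℚ Qbar (-((P.a : ℚ) ^ P.p) * (P.b : ℚ) ^ P.p / 16) = _
    simp
  have ea6 : (P.freyCurve⁄Qbar).a₆ = 0 := by
    change algebraMap ℚ Qbar 0 = 0
    exact map_zero _
  set a : Qbar := (P.a : Qbar) ^ P.p with ha
  set b : Qbar := (P.b : Qbar) ^ P.p with hb
  have hc : (P.c : Qbar) ^ P.p = a + b := by
    rw [ha, hb]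
    exact_mod_cast congrArg (fun z : ℤ => (z : Qbar)) P.hFLT.symm
  have hva : A.valuation a ≤ 1 := v_pow_le_one _ (v_intCast_le_one _ _) _
  have hvb : A.valuation b ≤ 1 := v_pow_le_one _ (v_intCast_le_one _ _) _
  have hW : IntegralFor A.valuation (P.freyCurve⁄Qbar) := by
    refine ⟨?_, ?_, ?_, ?_, ?_⟩
    · rw [ea1, map_one]
    · rw [ea2, map_div₀, hv4, div_one]
      exact v_sub_le_one _ (v_sub_le_one _ hvb (map_one _).le) hva
    · rw [ea3, _root_.map_zero]; exact zero_le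
    · rw [ea4, map_div₀, hv16, div_one]
      exact v_mul_le_one _ (by rwa [Valuation.map_neg]) hvb
    · rw [ea6, _root_.map_zero]; exact zero_le
  have eb2 : (P.freyCurve⁄Qbar).b₂ = b - a := by
    rw [WeierstrassCurve.b₂, ea1, ea2]; ring
  have eb4 : (P.freyCurve⁄Qbar).b₄ = - (a * b) / 8 := by
    rw [WeierstrassCurve.b₄, ea1, ea3, ea4]; ring
  have eb6 : (P.freyCurve⁄Qbar).b₆ = 0 := by
    rw [WeierstrassCurve.b₆, ea3, ea6]; ring
  have eb8 : (P.freyCurve⁄Qbar).b₈ = - (a * b / 16) ^ 2 := by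
    rw [WeierstrassCurve.b₈, ea1, ea3, ea4, ea6]; ring
  have T : TwoTorsionX (P.freyCurve⁄Qbar) 0 (a / 4) (-b / 4) :=
    ⟨by rw [eb2]; ring, by rw [eb4]; ring, by rw [eb6]; ring⟩
  have ha0 : a ≠ 0 := pow_ne_zero _ (by exact_mod_cast P.ha0)
  have hb0 : b ≠ 0 := pow_ne_zero _ (by exact_mod_cast P.hb0)
  have hab0 : a + b ≠ 0 := by rw [← hc]; exact pow_ne_zero _ (by exact_mod_cast P.hc0)
  have hΔ : (P.freyCurve⁄Qbar).Δ ≠ 0 := by
    have : (P.freyCurve⁄Qbar).Δ = (a * b * (a + b)) ^ 2 / 256 := by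
      rw [WeierstrassCurve.Δ, eb2, eb4, eb6, eb8]; ring
    rw [this]
    exact div_ne_zero (pow_ne_zero _ (mul_ne_zero (mul_ne_zero ha0 hb0) hab0)) (by norm_num)
  have hfixa : ∀ σ ∈ A.inertiaSubgroupIn ℚ, σ a = a := fun σ _ => by
    rw [ha, map_pow, map_intCast]
  have hfixb : ∀ σ ∈ A.inertiaSubgroupIn ℚ, σ b = b := fun σ _ => by
    rw [hb, map_pow, map_intCast]
  have hfixa4 : ∀ σ ∈ A.inertiaSubgroupIn ℚ, σ (a / 4) = a / 4 := fun σ hσ => by
    rw [map_div₀, hfixa σ hσ, map_ofNat]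
  have hfixb4 : ∀ σ ∈ A.inertiaSubgroupIn ℚ, σ (-b / 4) = -b / 4 := fun σ hσ => by
    rw [map_div₀, map_neg, hfixb σ hσ, map_ofNat]
  have hfix0 : ∀ σ ∈ A.inertiaSubgroupIn ℚ, σ (0 : Qbar) = 0 := fun σ hσ => map_zero σ
  have hva4 : A.valuation (a / 4) ≤ 1 := by rw [map_div₀, hv4, div_one]; exact hva
  have hvb4 : A.valuation (-b / 4) ≤ 1 := by
    rw [map_div₀, hv4, div_one, Valuation.map_neg]; exact hvb
  have hsq : ∀ a : Qbar, ∃ b, b ^ 2 = a := fun a => IsAlgClosed.exists_pow_nat_eq a two_pos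
  have hp2 : P.p ≠ 2 := by have := P.hp5; omega
  -- the three cases
  have hcop := P.hgcdab
  have hndab : ¬ ((q : ℤ) ∣ P.a ∧ (q : ℤ) ∣ P.b) := by
    rintro ⟨h1, h2⟩
    have := dvd_gcd h1 h2
    rw [hcop] at this
    exact hq'.not_isUnit (isUnit_of_dvd_one this)
  have hvA : ¬ (q : ℤ) ∣ P.a → A.valuation a = 1 := fun h => by
    rw [ha, map_pow, v_intCast_eq_one hq hA h, one_pow]
  have hvB : ¬ (q : ℤ) ∣ P.b → A.valuation b = 1 := fun h => by
    rw [hb, map_pow, v_intCast_eq_one hq hA h, one_pow]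
  have hvC : ¬ (q : ℤ) ∣ P.c → A.valuation (a + b) = 1 := fun h => by
    rw [← hc, map_pow, v_intCast_eq_one hq hA h, one_pow]
  have hcab : (q : ℤ) ∣ P.c → (¬ (q : ℤ) ∣ P.a) ∧ (¬ (q : ℤ) ∣ P.b) := by
    intro h
    refine ⟨fun h1 => ?_, fun h1 => ?_⟩
    · have := dvd_gcd h1 h
      rw [P.hgcdac] at this
      exact hq'.not_isUnit (isUnit_of_dvd_one this)
    · have := dvd_gcd h1 h
      rw [P.hgcdbc] at this
      exact hq'.not_isUnit (isUnit_of_dvd_one this)
  by_cases hqc : (q : ℤ) ∣ P.c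
  · obtain ⟨hqa, hqb⟩ := hcab hqc
    refine smul_eq_of_torsion A hW (e1 := a/4) (e2 := -b/4) (e3 := 0)
      T.rot.rot hΔ h2v hsq (fun a => exists_teich hq hA) hfixa4 hfixb4 hfix0 hva4
      hvb4 (by simp) ?_ ?_ ?_ P.pp hp2 hvp (α := (P.c : Qbar)) ?_ ?_ x hx hσ
    · intro h
      apply hab0
      linear_combination 4 * h
    · rw [sub_zero, map_div₀, hv4, div_one, hvA hqa]
    · rw [sub_zero, map_div₀, hv4, div_one, Valuation.map_neg, hvB hqb]
    · exact fun σ _ => map_intCast σ _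
    · have : a / 4 - -b / 4 = (a + b) / 4 := by ring
      rw [this, map_div₀, hv4, div_one, ← hc, map_pow]
  by_cases hqb : (q : ℤ) ∣ P.b
  · have hqa : ¬ (q : ℤ) ∣ P.a := fun h => hndab ⟨h, hqb⟩
    refine smul_eq_of_torsion A hW (e1 := 0) (e2 := -b/4) (e3 := a/4)
      T.rot.swap12 hΔ h2v hsq (fun a => exists_teich hq hA) hfix0 hfixb4 hfixa4
      (by simp) hvb4 hva4 ?_ ?_ ?_ P.pp hp2 hvp (α := (P.b : Qbar)) ?_ ?_ x hx hσ
    · intro h
      apply hb0
      linear_combination 4 * h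
    · rw [zero_sub, Valuation.map_neg, map_div₀, hv4, div_one, hvA hqa]
    · have : -b / 4 - a / 4 = -((a + b) / 4) := by ring
      rw [this, Valuation.map_neg, map_div₀, hv4, div_one, hvC hqc]
    · exact fun σ _ => map_intCast σ _
    · have : 0 - -b / 4 = b / 4 := by ring
      rw [this, map_div₀, hv4, div_one, hb, map_pow]
  · refine smul_eq_of_torsion A hW (e1 := 0) (e2 := a/4) (e3 := -b/4)
      T hΔ h2v hsq (fun a => exists_teich hq hA) hfix0 hfixa4 hfixb4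
      (by simp) hva4 hvb4 ?_ ?_ ?_ P.pp hp2 hvp (α := (P.a : Qbar)) ?_ ?_ x hx hσ
    · intro h
      apply ha0
      linear_combination -4 * h
    · have : 0 - -b / 4 = b / 4 := by ring
      rw [this, map_div₀, hv4, div_one, hvB hqb]
    · have : a / 4 - -b / 4 = (a + b) / 4 := by ring
      rw [this, map_div₀, hv4, div_one, hvC hqc]
    · exact fun σ _ => map_intCast σ _
    · rw [zero_sub, Valuation.map_neg, map_div₀, hv4, div_one, ha, map_pow]

end Fermat.Agent.EC.Frey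

open WeierstrassCurve WeierstrassCurve.Affine WeierstrassCurve.Affine.Point
open CuspForm ModularFormClass UpperHalfPlane
open FreyPackage

namespace Fermat.Agent.S05

theorem result (P : FreyPackage) {q : ℕ} (hq : q.Prime) (hq2 : q ≠ 2) (hqp : q ≠ P.p) : P.GaloisRepUnramifiedAt q := by
  intro A hA σ hσ x
  apply Subtype.ext
  exact Fermat.Agent.EC.Frey.frey_smul_eq P hq hq2 hqp hA hσ x.1 (by
    have := (Submodule.mem_torsionBy_iff _ _).mp x.2
    rwa [natCast_zsmul] at this)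

end Fermat.Agent.S05
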