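import Fermat.Statements.S07
import Fermat.Prelude.Thm_ModularForm_sturm_bound_Gamma0
-- import your own Fermat.Agent.* helpers here

set_option autoImplicit false
open WeierstrassCurve WeierstrassCurve.Affine WeierstrassCurve.Affine.Point
open CuspForm ModularFormClass UpperHalfPlane
open ModularForm

namespace Fermat.Agent.S07

open scoped MatrixGroups in
lemma index_le : (CongruenceSubgroup.Gamma0 2).index ≤ 5 := by
  have h1 : (CongruenceSubgroup.Gamma 2).index ≤ 6 := by
    rw [CongruenceSubgroup.Gamma, Subgroup.index_ker]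
    refine (Nat.card_le_card_of_injective (Subtype.val) Subtype.val_injective).trans ?_
    rw [Nat.card_eq_fintype_card]
    have : Fintype.card (SL(2, ZMod 2)) = 6 := by decide +kernel
    omega
  have hle : CongruenceSubgroup.Gamma 2 ≤ CongruenceSubgroup.Gamma0 2 := by
    intro A hA
    simp only [CongruenceSubgroup.Gamma_mem, CongruenceSubgroup.Gamma0_mem] at *
    exact hA.2.2.1
  have h2 := Subgroup.relIndex_mul_index hle
  have h3 : (CongruenceSubgroup.Gamma 2).relIndex (CongruenceSubgroup.Gamma0 2) ≠ 1 := by
    rw [Ne, Subgroup.relIndex_eq_one]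
    intro h
    have : ModularGroup.T ∈ CongruenceSubgroup.Gamma 2 := by
      apply h
      rw [CongruenceSubgroup.Gamma0_mem]
      simp [ModularGroup.coe_T]
    rw [CongruenceSubgroup.Gamma_mem] at this
    have h01 := this.2.1
    simp [ModularGroup.coe_T] at h01
  have h4 : (CongruenceSubgroup.Gamma 2).relIndex (CongruenceSubgroup.Gamma0 2) ≠ 0 := by
    intro h0
    rw [h0, zero_mul] at h2
    exact Subgroup.FiniteIndex.index_ne_zero h2.symm
  have h5 : 2 ≤ (CongruenceSubgroup.Gamma 2).relIndex (CongruenceSubgroup.Gamma0 2) := by omega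
  nlinarith

theorem result (f : CuspForm (CongruenceSubgroup.Gamma0 2) 2) : f = 0 := by
  apply CuspForm.toModularFormₗ_injective
  rw [_root_.map_zero]
  apply ModularForm.sturm_bound_Gamma0
  intro n hn
  have hi := index_le
  have hn0 : n = 0 := by
    have : ((2 : ℤ) * ((CongruenceSubgroup.Gamma0 2).index : ℤ)).toNat / 12 = 0 := by
      omega
    omega
  subst hn0
  exact CuspFormClass.qExpansion_coeff_zero f one_pos
    (by simp [CongruenceSubgroup.strictPeriods_Gamma0])

end Fermat.Agent.S07
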