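import Fermat.Statements.S08
import Fermat.Prelude.Thm_ModularForm_sturm_bound_Gamma0
-- import your own Fermat.Agent.* helpers here

set_option autoImplicit false
open WeierstrassCurve WeierstrassCurve.Affine WeierstrassCurve.Affine.Point
open CuspForm ModularFormClass UpperHalfPlane
open ModularForm

namespace Fermat.Agent.S08

lemma index_le : (CongruenceSubgroup.Gamma0 1).index = 1 := by
  rw [Subgroup.index_eq_one]
  ext A
  simp [CongruenceSubgroup.Gamma0_mem, eq_iff_true_of_subsingleton]

theorem result (f : CuspForm (CongruenceSubgroup.Gamma0 1) 2) : f = 0 := by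
  apply CuspForm.toModularFormₗ_injective
  rw [_root_.map_zero]
  apply ModularForm.sturm_bound_Gamma0
  intro n hn
  rw [index_le] at hn
  have hn0 : n = 0 := by
    have : ((2 : ℤ) * ((1 : ℕ) : ℤ)).toNat / 12 = 0 := by decide
    omega
  subst hn0
  exact CuspFormClass.qExpansion_coeff_zero f one_pos
    (by simp [CongruenceSubgroup.strictPeriods_Gamma0])

end Fermat.Agent.S08
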