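import Fermat.Statements.S12
import Fermat.Agent.Mazur.Geo

set_option autoImplicit false
open WeierstrassCurve WeierstrassCurve.Affine WeierstrassCurve.Affine.Point
open CuspForm ModularFormClass UpperHalfPlane
open FreyPackage

namespace Fermat.Agent.S12

theorem result (P : FreyPackage) (hp : 17 ≤ P.p) : ¬ HasGaloisStableCofixedLine (K := AlgebraicClosure ℚ) ℚ P.freyCurve P.p := by
  exact Fermat.Agent.Mazur.s12_of_geo P hp fun p _ _ => Fermat.Agent.Mazur.geoInputs p

end Fermat.Agent.S12
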