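import Fermat.Statements.S13
import Fermat.Agent.S13lib.Line
import Fermat.Agent.S05
import Fermat.Agent.Frob.Minkowski

set_option autoImplicit false

namespace Fermat.Agent.S13lib

open WeierstrassCurve WeierstrassCurve.Affine WeierstrassCurve.Affine.Point
open Fermat.Agent.EC Fermat.Agent.DivPoly

local notation "Qbar" => AlgebraicClosure ℚ

section abstract

variable {F V : Type*} [Field F] [AddCommGroup V] [Module F V]

theorem unipotent_line (hV : Module.finrank F V = 1) (f : V →ₗ[F] V)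
    (h : ∀ x, f (f x - x) - (f x - x) = 0) (x : V) : f x = x := by
  rcases eq_or_ne x 0 with rfl | hx
  · exact _root_.map_zero f
  obtain ⟨c, hc⟩ := (finrank_eq_one_iff_of_nonzero' x hx).mp hV (f x)
  have h1 := h x
  rw [← hc] at h1 ⊢
  have h2 : ((c - 1) * (c - 1)) • x = 0 := by
    rw [← h1, map_sub, map_smul, ← hc]
    module
  have h3 : c - 1 = 0 := by
    rcases smul_eq_zero.mp h2 with h | h
    · exact mul_self_eq_zero.mp h
    · exact absurd h hx
  rw [sub_eq_zero.mp h3, one_smul]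

theorem unipotent_sub (N : Submodule F V) (hN : Module.finrank F N = 1) (f : V →ₗ[F] V)
    (hf : ∀ x ∈ N, f x ∈ N) (h : ∀ x ∈ N, f (f x - x) - (f x - x) = 0) (x : V) (hx : x ∈ N) :
    f x = x := by
  have := unipotent_line hN (f.restrict hf) (by
    intro y
    apply Subtype.ext
    simpa using h y.1 y.2) ⟨x, hx⟩
  exact congrArg Subtype.val this

theorem unipotent_quot (N : Submodule F V) (hN : Module.finrank F (V ⧸ N) = 1) (f : V →ₗ[F] V)
    (hf : ∀ x ∈ N, f x ∈ N) (h : ∀ x, f (f x - x) - (f x - x) ∈ N) (x : V) :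
    f x - x ∈ N := by
  have hle : N ≤ N.comap f := fun x hx => hf x hx
  have := unipotent_line hN (N.mapQ N f hle) (by
    intro y
    obtain ⟨y, rfl⟩ := N.mkQ_surjective y
    have h1 : N.mapQ N f hle (N.mapQ N f hle (N.mkQ y) - N.mkQ y) -
      (N.mapQ N f hle (N.mkQ y) - N.mkQ y) = N.mkQ (f (f y - y) - (f y - y)) := by
      simp only [Submodule.mkQ_apply, Submodule.mapQ_apply, map_sub]
    rw [h1, Submodule.mkQ_apply, Submodule.Quotient.mk_eq_zero]
    exact h y) (N.mkQ x)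
  rw [Submodule.mkQ_apply, Submodule.mapQ_apply] at this
  exact (Submodule.Quotient.eq N).mp this

end abstract

variable (P : FreyPackage)

noncomputable abbrev Tor := Submodule.torsionBy ℤ (P.freyCurve⁄Qbar).Point (P.p : ℤ)

/-- the action of `σ` as a linear map -/
noncomputable def smulLin (σ : Qbar ≃ₐ[ℚ] Qbar) : Tor P →ₗ[ZMod P.p] Tor P :=
  AddMonoidHom.toZModLinearMap P.p (DistribSMul.toAddMonoidHom (Tor P) σ)

@[simp] theorem smulLin_apply (σ : Qbar ≃ₐ[ℚ] Qbar) (x : Tor P) : smulLin P σ x = σ • x := rfl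

/-- the subgroup of elements acting trivially on `E[p]` is open -/
theorem isOpen_trivial (H : Subgroup (Qbar ≃ₐ[ℚ] Qbar))
    (hH : ∀ σ : Qbar ≃ₐ[ℚ] Qbar, (∀ x : Tor P, σ • x = x) → σ ∈ H) :
    IsOpen (H : Set (Qbar ≃ₐ[ℚ] Qbar)) := by
  have hfin : Finite (Tor P) :=
    finite_torsionBy_baseChange _ (frey_Δ_ne_zero P) P.p P.hp0
  have halg : Algebra.IsAlgebraic ℚ Qbar := AlgebraicClosure.isAlgebraic ℚ
  let K : Subgroup (Qbar ≃ₐ[ℚ] Qbar) :=
    ⨅ x : Tor P, (MulAction.stabilizer (Qbar ≃ₐ[ℚ] Qbar) (xc x.1) ⊓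
      MulAction.stabilizer (Qbar ≃ₐ[ℚ] Qbar) (yc x.1))
  have hK : IsOpen (K : Set (Qbar ≃ₐ[ℚ] Qbar)) := by
    rw [Subgroup.coe_iInf]
    apply isOpen_iInter_of_finite
    intro x
    rw [Subgroup.coe_inf]
    exact (stabilizer_isOpen_of_isIntegral (K := ℚ) (xc x.1)).inter
      (stabilizer_isOpen_of_isIntegral (K := ℚ) (yc x.1))
  refine Subgroup.isOpen_mono (H₁ := K) ?_ hK
  intro σ hσ
  apply hH
  intro x
  rw [Subgroup.mem_iInf] at hσ
  obtain ⟨h1, h2⟩ := Subgroup.mem_inf.mp (hσ x)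
  rw [MulAction.mem_stabilizer_iff] at h1 h2
  apply Subtype.ext
  change σ • x.1 = x.1
  rcases hx : x.1 with _ | ⟨a, b, hab⟩
  · rfl
  · rw [hx] at h1 h2
    rw [algEquiv_smul_def, Point.map_some]
    congr 1

/-- elements acting trivially on `N` -/
def Hsub (N : Submodule (ZMod P.p) (Tor P)) : Subgroup (Qbar ≃ₐ[ℚ] Qbar) where
  carrier := {σ | ∀ x ∈ N, σ • x = x}
  one_mem' := fun x _ => one_smul _ x
  mul_mem' := fun {σ τ} hσ hτ x hx => by rw [mul_smul, hτ x hx, hσ x hx]
  inv_mem' := fun {σ} hσ x hx => by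
    rw [inv_smul_eq_iff]; exact (hσ x hx).symm

/-- elements acting trivially on `E[p] / N` -/
def Hquo (N : Submodule (ZMod P.p) (Tor P)) (hst : IsGaloisStable ℚ N) :
    Subgroup (Qbar ≃ₐ[ℚ] Qbar) where
  carrier := {σ | ∀ x, σ • x - x ∈ N}
  one_mem' := fun x => by rw [one_smul, sub_self]; exact N.zero_mem
  mul_mem' := fun {σ τ} hσ hτ x => by
    have : (σ * τ) • x - x = σ • (τ • x - x) + (σ • x - x) := by
      rw [mul_smul, smul_sub]; abel
    rw [this]
    exact N.add_mem (hst σ _ (hτ x)) (hσ x)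
  inv_mem' := fun {σ} hσ x => by
    have : σ⁻¹ • x - x = -(σ⁻¹ • (σ • x - x)) := by
      rw [smul_sub, inv_smul_smul]; abel
    rw [this]
    exact N.neg_mem (hst _ _ (hσ x))

theorem Hsub_normal (N : Submodule (ZMod P.p) (Tor P)) (hst : IsGaloisStable ℚ N) :
    (Hsub P N).Normal := by
  constructor
  intro σ hσ g x hx
  change (g * σ * g⁻¹) • x = x
  rw [mul_smul, mul_smul, hσ _ (hst g⁻¹ x hx), smul_inv_smul]

theorem Hquo_normal (N : Submodule (ZMod P.p) (Tor P)) (hst : IsGaloisStable ℚ N) :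
    (Hquo P N hst).Normal := by
  constructor
  intro σ hσ g x
  have : (g * σ * g⁻¹) • x - x = g • (σ • (g⁻¹ • x) - g⁻¹ • x) := by
    rw [smul_sub, mul_smul, mul_smul, smul_inv_smul]
  rw [this]
  exact hst g _ (hσ _)

end Fermat.Agent.S13lib

open WeierstrassCurve WeierstrassCurve.Affine WeierstrassCurve.Affine.Point
open CuspForm ModularFormClass UpperHalfPlane
open FreyPackage

namespace Fermat.Agent.S13

open Fermat.Agent.S13lib Fermat.Agent.EC in
theorem result (P : FreyPackage) (hred : ¬ GaloisRepIsIrreducible (K := AlgebraicClosure ℚ) ℚ P.freyCurve P.p) : HasGaloisStableCofixedLine (K := AlgebraicClosure ℚ) ℚ P.freyCurve P.p := by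
  have hfact : Fact P.p.Prime := ⟨P.pp⟩
  have hgal : IsGalois ℚ (AlgebraicClosure ℚ) := inferInstance
  have hΔ := frey_Δ_ne_zero P
  -- a stable line
  obtain ⟨N, hst, hbot, htop⟩ : ∃ N : Submodule (ZMod P.p) (Tor P), IsGaloisStable ℚ N ∧ N ≠ ⊥ ∧
      N ≠ ⊤ := by
    rw [GaloisRepIsIrreducible, not_and_or] at hred
    rcases hred with h | h
    · exact absurd (DivPoly.nontrivial_torsionBy_baseChange _ hΔ P.p (by have := P.hp5; omega)) h
    · push Not at h
      exact h
  obtain ⟨hN1, -⟩ := DivPoly.natCard_submodule _ hΔ P.p N hbot htop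
  have hN2 : Module.finrank (ZMod P.p) (Tor P ⧸ N) = 1 := by
    have h1 := DivPoly.finrank_torsionBy_baseChange P.freyCurve hΔ P.p
    have := DivPoly.finite_torsionBy_baseChange _ hΔ P.p P.hp0
    have : Module.Finite (ZMod P.p) (Tor P) := Module.Finite.of_finite
    have h2 := Submodule.finrank_quotient_add_finrank N
    rw [h1, hN1] at h2
    omega
  -- places
  obtain ⟨A, hA⟩ := Frob.exists_liesOverPrime (AlgebraicClosure ℚ) P.pp
  have hother : ∀ ℓ : ℕ, ℓ.Prime → ℓ ≠ P.p → ∃ B : ValuationSubring (AlgebraicClosure ℚ),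
      B.LiesOverPrime ℓ ∧ ∀ σ ∈ B.inertiaSubgroupIn ℚ, ∀ x : Tor P,
        σ • (σ • x - x) - (σ • x - x) = 0 := by
    intro ℓ hℓ hℓp
    obtain ⟨B, hB⟩ := Frob.exists_liesOverPrime (AlgebraicClosure ℚ) hℓ
    refine ⟨B, hB, fun σ hσ x => ?_⟩
    have h1 := frey_sq P hℓ hB hσ x.1
    apply Subtype.ext
    refine h1.eq_zero_of_nsmul_eq_zero (frey_integral P B) (n := P.p) ?_ ?_
    · have := v_intCast_eq_one' (L := AlgebraicClosure ℚ) hℓ hB (n := (P.p : ℤ)) (by
        intro h
        have h1 : ℓ ∣ P.p := by exact_mod_cast h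
        exact hℓp ((Nat.prime_dvd_prime_iff_eq hℓ P.pp).1 h1))
      simpa using this
    · have := (Submodule.mem_torsionBy_iff _ _).mp (σ • (σ • x - x) - (σ • x - x)).2
      rwa [natCast_zsmul] at this
  by_cases hE : ∃ x ∈ N, x ≠ 0 ∧ E1 A.valuation x.1
  · -- `N` is the kernel of reduction at `p`
    obtain ⟨x0, hx0, hx0', hxE⟩ := hE
    have hNE : ∀ x ∈ N, E1 A.valuation x.1 := by
      intro x hx
      have hx0n : (⟨x0, hx0⟩ : N) ≠ 0 := fun h => hx0' (congrArg Subtype.val h)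
      obtain ⟨c, hc⟩ := (finrank_eq_one_iff_of_nonzero' (⟨x0, hx0⟩ : N) hx0n).mp hN1 ⟨x, hx⟩
      have h1 : x = (ZMod.cast c : ℤ) • x0 := by
        have h2 : x = c • x0 := (congrArg Subtype.val hc).symm
        rw [h2, ← Int.cast_smul_eq_zsmul (ZMod P.p), ZMod.intCast_zmod_cast]
      rw [h1]
      have h3 : (((ZMod.cast c : ℤ) • x0 : Tor P)).1 = (ZMod.cast c : ℤ) • x0.1 := rfl
      rw [h3]
      exact AddSubgroup.zsmul_mem (E1Subgroup (frey_integral P A)) hxE _
    refine ⟨N, hst, hbot, htop, ?_⟩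
    have hnormal := Hquo_normal P N hst
    have hopen : IsOpen (Hquo P N hst : Set (AlgebraicClosure ℚ ≃ₐ[ℚ] AlgebraicClosure ℚ)) := by
      apply isOpen_trivial P
      intro σ hσ x
      rw [hσ, sub_self]
      exact N.zero_mem
    have htop' := Frob.subgroup_eq_top_of_normal (Hquo P N hst) hopen (by
      intro ℓ hℓ
      by_cases hℓp : ℓ = P.p
      · subst hℓp
        refine ⟨A, hA, fun σ hσ => ?_⟩
        refine unipotent_quot N hN2 (smulLin P σ) (fun x hx => hst σ x hx) (fun x => ?_)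
        exact frey_mem_of_E1 P hA N hst hbot hNE _ (frey_sq P hℓ hA hσ x.1)
      · obtain ⟨B, hB, h⟩ := hother ℓ hℓ hℓp
        refine ⟨B, hB, fun σ hσ => ?_⟩
        refine unipotent_quot N hN2 (smulLin P σ) (fun x hx => hst σ x hx) (fun x => ?_)
        have : smulLin P σ (smulLin P σ x - x) - (smulLin P σ x - x) = 0 := h σ hσ x
        rw [this]
        exact N.zero_mem)
    intro σ x
    have : σ ∈ Hquo P N hst := by rw [htop']; exact Subgroup.mem_top σ
    exact this x
  · -- `N` consists of rational points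
    exfalso
    push Not at hE
    have hnormal := Hsub_normal P N hst
    have hopen : IsOpen (Hsub P N : Set (AlgebraicClosure ℚ ≃ₐ[ℚ] AlgebraicClosure ℚ)) := by
      apply isOpen_trivial P
      intro σ hσ x _
      exact hσ x
    have htop' := Frob.subgroup_eq_top_of_normal (Hsub P N) hopen (by
      intro ℓ hℓ
      by_cases hℓp : ℓ = P.p
      · subst hℓp
        refine ⟨A, hA, fun σ hσ => ?_⟩
        refine unipotent_sub N hN1 (smulLin P σ) (fun x hx => hst σ x hx) (fun x hx => ?_)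
        by_contra hne
        refine hE _ ?_ hne (frey_sq P hℓ hA hσ x.1)
        have h1 : σ • x - x ∈ N := N.sub_mem (hst σ x hx) hx
        exact N.sub_mem (hst σ _ h1) h1
      · obtain ⟨B, hB, h⟩ := hother ℓ hℓ hℓp
        refine ⟨B, hB, fun σ hσ => ?_⟩
        exact unipotent_sub N hN1 (smulLin P σ) (fun x hx => hst σ x hx) (fun x hx => h σ hσ x))
    obtain ⟨x0, hx0, hx0'⟩ := Submodule.exists_mem_ne_zero_of_ne_bot hbot
    refine frey_no_fixed_point P x0.1 (fun h => hx0' (Subtype.ext h)) ?_ ?_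
    · have := (Submodule.mem_torsionBy_iff _ _).mp x0.2
      rwa [natCast_zsmul] at this
    · intro σ
      have : σ ∈ Hsub P N := by rw [htop']; exact Subgroup.mem_top σ
      exact congrArg Subtype.val (this x0 hx0)

end Fermat.Agent.S13
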