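import Fermat.Statements.S09
import Fermat.Agent.S10
import Fermat.Agent.S11
import Fermat.Agent.S12
import Fermat.Agent.S13

set_option autoImplicit false
open WeierstrassCurve WeierstrassCurve.Affine WeierstrassCurve.Affine.Point
open CuspForm ModularFormClass UpperHalfPlane
open FreyPackage

namespace Fermat.Agent.S09

theorem result (P : FreyPackage) : GaloisRepIsIrreducible (K := AlgebraicClosure ℚ) ℚ P.freyCurve P.p := by
  by_contra hred
  have h := Fermat.Agent.S13.result P hred
  rcases lt_or_ge P.p 17 with hlt | hge
  · have hp := P.pp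
    have h5 := P.hp5
    have h4 : P.p = 5 ∨ P.p = 7 ∨ P.p = 11 ∨ P.p = 13 := by
      generalize P.p = n at hlt hp h5
      interval_cases n <;> first | omega | (exfalso; revert hp; decide)
    rcases h4 with h4 | h4 | h4 | h4
    · exact Fermat.Agent.S10.result P (Or.inl h4) h
    · exact Fermat.Agent.S10.result P (Or.inr (Or.inl h4)) h
    · exact Fermat.Agent.S11.result P h4 h
    · exact Fermat.Agent.S10.result P (Or.inr (Or.inr h4)) h
  · exact Fermat.Agent.S12.result P hge h

end Fermat.Agent.S09
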