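import Fermat.Statements.S17
import Fermat.Agent.MW.Assembly
import Fermat.Agent.MW.HeightData
import Fermat.Agent.Spc.Divis

set_option autoImplicit false
open ModularCurve AlgebraicCurve
open ModularCurve ModularCurve.JZero

namespace Fermat.Agent.S17

theorem result (N : ℕ) [NeZero N] (hN : N.Prime) (hN5 : 5 ≤ N) :
    AddGroup.FG ↥(FixedPoints.addSubgroup ((AlgebraicClosure ℚ) ≃ₐ[ℚ] (AlgebraicClosure ℚ)) (JZero N)) := by
  obtain ⟨o⟩ : Nonempty (Place (AlgebraicClosure ℚ) (modularFunctionFieldBar N)) := by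
    obtain ⟨x, hx⟩ := Fermat.Agent.RR.exists_transcendental (K := AlgebraicClosure ℚ)
      (F := modularFunctionFieldBar N)
    obtain ⟨v, -⟩ := Fermat.Agent.RR.exists_ord_neg_of_transcendental hx
    exact ⟨v⟩
  obtain ⟨H⟩ := Fermat.Agent.MW.nonempty_heightData Fermat.Agent.MW.QbarAd.adelicQb o
  exact Fermat.Agent.MW.fg_JZero N
    (fun x => Fermat.Agent.Spc.divisible (AlgebraicClosure ℚ) (modularFunctionFieldBar N)
      two_ne_zero x) o H

end Fermat.Agent.S17
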