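import Fermat.Statements.S19
import Fermat.Agent.FFM.JZeroFlat

set_option autoImplicit false
open ModularCurve
open ModularCurve

namespace Fermat.Agent.S19

theorem result
    (p : ℕ) [NeZero p] (ℓ : ℕ) [Fact ℓ.Prime] (hℓp : ¬ ℓ ∣ p) (k : ℕ) :
    ∃ (H : Type) (_ : CommRing H) (_ : HopfAlgebra (GaloisRep.ratLocalizedAt ℓ) H),
      Module.Finite (GaloisRep.ratLocalizedAt ℓ) H ∧ Module.Flat (GaloisRep.ratLocalizedAt ℓ) H ∧
      Coalgebra.IsCocomm (GaloisRep.ratLocalizedAt ℓ) H ∧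
      ∃ e : WithConv (H →ₐ[GaloisRep.ratLocalizedAt ℓ] AlgebraicClosure ℚ) ≃
          ↥(Submodule.torsionBy ℤ (JZero p) ((ℓ : ℤ) ^ k)),
        (∀ f g, e (f * g) = e f + e g) ∧
        ∀ (σ : AlgebraicClosure ℚ ≃ₐ[ℚ] AlgebraicClosure ℚ)
          (f g : WithConv (H →ₐ[GaloisRep.ratLocalizedAt ℓ] AlgebraicClosure ℚ)),
          (∀ h : H, g h = σ (f h)) → ((e g : JZero p)) = σ • (e f : JZero p) := by
  let M := ↥(Submodule.torsionBy ℤ (JZero p) ((ℓ : ℤ) ^ k))
  haveI : NeZero (ℓ ^ k) := ⟨pow_ne_zero k (Fact.out : ℓ.Prime).ne_zero⟩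
  haveI hfin : Finite M := by
    haveI := Fermat.Agent.Top.finite_pTor p (ℓ ^ k)
    refine Finite.of_injective (fun x : M => (⟨(x : JZero p), ?_⟩ :
      Fermat.Agent.RepTwo.pTor (JZero p) (ℓ ^ k))) ?_
    · have h1 := x.2
      rw [Submodule.mem_torsionBy_iff] at h1
      change (ℓ ^ k) • (x : JZero p) = 0
      rw [← natCast_zsmul]
      push_cast
      exact h1
    · intro x y h
      exact Subtype.ext (congrArg Subtype.val h)
  let act : DistribMulAction (AlgebraicClosure ℚ ≃ₐ[ℚ] AlgebraicClosure ℚ) M :=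
    { smul := fun σ x => ⟨σ • (x : JZero p), by
        have h1 := x.2
        rw [Submodule.mem_torsionBy_iff] at h1 ⊢
        change ((ℓ : ℤ) ^ k) • (DistribMulAction.toAddMonoidHom (JZero p) σ (x : JZero p)) = 0
        rw [← map_zsmul, h1, map_zero]⟩
      one_smul := fun x => Subtype.ext (one_smul _ _)
      mul_smul := fun σ τ x => Subtype.ext (mul_smul _ _ _)
      smul_zero := fun σ => Subtype.ext (smul_zero _)
      smul_add := fun σ x y => Subtype.ext (smul_add _ _ _) }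
  have hflat := Fermat.Agent.FFM.isFlat_jZero (N := p) (ℓ := ℓ) hℓp (M := M)
    (Submodule.torsionBy ℤ (JZero p) ((ℓ : ℤ) ^ k)).subtype.toAddMonoidHom
    Subtype.val_injective (fun g m => rfl)
  obtain ⟨H, i1, i2, h1, h2, h3, e, he, heσ⟩ := hflat.hopfModel
  refine ⟨H, i1, i2, h1, h2, h3, e, he, fun σ f g h => ?_⟩
  exact congrArg Subtype.val (heσ σ f g h)

end Fermat.Agent.S19
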