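import Fermat.Statements.S26
import Fermat.Agent.AV.SchFin
import Fermat.Agent.AV.MulDeg
import Fermat.Agent.AV.Aff
import Fermat.Agent.AV.TanMain
import Fermat.Agent.AV.SlotMain
import Fermat.Agent.AV.FinStmt
import Fermat.Agent.AV.Cube

set_option autoImplicit false
set_option autoImplicit false
open CategoryTheory CategoryTheory.Limits AlgebraicGeometry NeronModelInfra GoodReductionJacobian
universe u
open GoodReductionJacobian GoodReductionJacobian.RelativeGroupLaw

namespace Fermat.Agent.S26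

theorem result
    (K : Type u) [Field K] [IsAlgClosed K] {A : Scheme.{u}} (f : A ⟶ Spec (CommRingCat.of K))
    (L : RelativeGroupLaw K f) (hc : L.IsCommutative) (hA : AbelianSchemePropertyBundle K f)
    (g : ℕ) [SmoothOfRelativeDimension g f] (n : ℕ) (hn : (n : K) ≠ 0) :
    Nat.card {x : SchemeHomOver (𝟙 (Spec (CommRingCat.of K))) f //
        L.IsTorsionPoint (𝟙 (Spec (CommRingCat.of K))) n x} = n ^ (2 * g) := by
  obtain ⟨V, hufd, hg, -, hcard⟩ := Fermat.Agent.AV.Sch.exists_gv f L hc hA g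
  obtain ⟨D, ⟨A'⟩⟩ := Fermat.Agent.AV.exists_aff V hufd
  rw [hcard n]
  exact Fermat.Agent.AV.card_torsion_of V g hg (Fermat.Agent.AV.tanStmt V)
    (Fermat.Agent.AV.slotStmt_main A' (Fermat.Agent.AV.cubeStmt D))
    (Fermat.Agent.AV.finStmt K) hn

end Fermat.Agent.S26
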