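import Fermat.Statements.S41
import Fermat.Agent.Ihara.Raise
import Fermat.Agent.Ihara.NonEis

set_option autoImplicit false
open WeierstrassCurve WeierstrassCurve.Affine WeierstrassCurve.Affine.Point
open scoped CongruenceSubgroup
open WeierstrassCurve

namespace Fermat.Agent.S41

theorem result
    (E : WeierstrassCurve ℚ) [E.IsElliptic] {W : WeierstrassCurve ℤ} (hW : W.IsIntegralModelOf E)
    {p N q' : ℕ} (hp : p.Prime) (hp2 : p ≠ 2) (hN : 0 < N) (hq' : q'.Prime) (hq'N : ¬ q' ∣ N) (hq'p : q' ≠ p)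
    (hirr : GaloisRepIsIrreducible (K := AlgebraicClosure ℚ) ℚ E p)
    (f : CuspForm (CongruenceSubgroup.Gamma0 N) 2) (𝔪 : Ideal (integralClosure ℤ ℂ))
    (hf : f.IsNormalizedEigenform) (hmax : 𝔪.IsMaximal) (hpm : (p : integralClosure ℤ ℂ) ∈ 𝔪)
    (hcong : ∀ ℓ : ℕ, ℓ.Prime → W.IsGoodPrimeFor ℓ → ¬ ℓ ∣ N → ℓ ≠ p →
      ∃ a : integralClosure ℤ ℂ, (a : ℂ) = ModularFormClass.qCoeff f ℓ ∧
        a - ((W.apOfModel ℓ : ℤ) : integralClosure ℤ ℂ) ∈ 𝔪)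
    (hLR : ∃ a : integralClosure ℤ ℂ, (a : ℂ) = ModularFormClass.qCoeff f q' ∧
      a ^ 2 - ((q' : integralClosure ℤ ℂ) + 1) ^ 2 ∈ 𝔪) :
    ∃ (g : CuspForm (CongruenceSubgroup.Gamma0 (N * q')) 2) (𝔪' : Ideal (integralClosure ℤ ℂ)),
      g.IsNormalizedEigenform ∧ 𝔪'.IsMaximal ∧ (p : integralClosure ℤ ℂ) ∈ 𝔪' ∧
      (∀ ℓ : ℕ, ℓ.Prime → W.IsGoodPrimeFor ℓ → ¬ ℓ ∣ N * q' → ℓ ≠ p →
        ∃ a : integralClosure ℤ ℂ, (a : ℂ) = ModularFormClass.qCoeff g ℓ ∧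
          a - ((W.apOfModel ℓ : ℤ) : integralClosure ℤ ℂ) ∈ 𝔪') ∧
      g.IsNewAt q' := by
  have : Fact p.Prime := ⟨hp⟩
  have hint : ∀ n : ℤ, (n : integralClosure ℤ ℂ) ∈ 𝔪 → (p : ℤ) ∣ n := by
    intro n hn
    by_contra hnd
    obtain ⟨x, y, hxy⟩ := (Nat.prime_iff_prime_int.mp hp).coprime_iff_not_dvd.mpr hnd
    apply hmax.ne_top
    rw [Ideal.eq_top_iff_one]
    have h1 : (1 : integralClosure ℤ ℂ) = (x : integralClosure ℤ ℂ) * p + y * n := by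
      have := congrArg (Int.cast : ℤ → integralClosure ℤ ℂ) hxy
      push_cast at this
      exact this.symm
    rw [h1]
    exact 𝔪.add_mem (𝔪.mul_mem_left _ hpm) (𝔪.mul_mem_left _ hn)
  obtain ⟨g, 𝔪', hg, hmax', hpm', hcong', hnew⟩ :=
    Fermat.Agent.Ihara.level_raising hN.ne' hp hp2 hq' hq'N hf 𝔪 hmax hpm hLR (by
      intro n hn
      obtain ⟨ℓ, hℓ, hℓS, hℓ1, hg, hne⟩ :=
        Fermat.Agent.Ihara.exists_prime_ap_of_model hW hp2 hirr hn (insert p N.primeFactors)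
      simp only [Finset.mem_insert, not_or] at hℓS
      obtain ⟨hℓp, hℓN⟩ := hℓS
      have hℓN' : ¬ ℓ ∣ N := fun h => hℓN (Nat.mem_primeFactors.mpr ⟨hℓ, h, hN.ne'⟩)
      obtain ⟨a, ha, hac⟩ := hcong ℓ hℓ hg hℓN' hℓp
      refine ⟨ℓ, hℓ, hℓ1, a, ha, fun h => hne (hint _ ?_)⟩
      have h1 := 𝔪.sub_mem h hac
      push_cast
      have h2 : a - ((ℓ : integralClosure ℤ ℂ) + 1) - (a - ((W.apOfModel ℓ : ℤ) :
          integralClosure ℤ ℂ)) = (W.apOfModel ℓ : integralClosure ℤ ℂ) - (ℓ + 1) := by ring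
      rw [h2] at h1
      exact h1)
  refine ⟨g, 𝔪', hg, hmax', hpm', fun ℓ hℓ hgood hℓN hℓp => ?_, hnew⟩
  obtain ⟨a, ha, hac⟩ := hcong ℓ hℓ hgood (fun h => hℓN (h.mul_right q')) hℓp
  exact hcong' ℓ hℓ hℓN a _ ha hac

end Fermat.Agent.S41
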