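import Fermat.Statements.S42
import Fermat.Agent.RepTwo.Geometry
import Fermat.Agent.QComp.Geom
-- import your own Fermat.Agent.* helpers here

set_option autoImplicit false
open FreyPackage

namespace Fermat.Agent.S42

theorem result (P : FreyPackage) :
    ∀ M : ℕ, 0 < M → P.EigenformResidualAttachmentAt M := by
  exact RepTwo.s42_of_geometry (fun N p _ hp => have : NeZero p := ⟨hp.ne_zero⟩; RepTwo.jZeroGeometry_of_es (QComp.jZeroES N p)) P

end Fermat.Agent.S42
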