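import Fermat.Statements.S47
import Fermat.Agent.LT.Top.Main47
import Fermat.Agent.LT.Psi.Inst
import Fermat.Agent.LT.Spec.Descent

set_option autoImplicit false
set_option autoImplicit false
open AutomorphicForm FLT.ExplicitLift EisensteinWeightOne open WeierstrassCurve
open scoped MatrixGroups
local notation "Γℚ" => (AlgebraicClosure ℚ ≃ₐ[ℚ] AlgebraicClosure ℚ)
open LanglandsTunnell

namespace Fermat.Agent.S47

theorem result
    (ρ : Γℚ →* GL (Fin 2) (ZMod 3)) (hρ : Continuous ρ) (hsurj : Function.Surjective ρ)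
    (hdet : ∀ σ : Γℚ, Matrix.GeneralLinearGroup.det (ρ σ) = modThreeCyclotomicChar σ)
    (Ψ : GL (Fin 2) (ZMod 3) →* GL (Fin 2) (ℤ√(-2)))
    (hΨ : ∀ g, Matrix.GeneralLinearGroup.map red (Ψ g) = g) :
    ∃ (N : ℕ) (_ : NeZero N) (b : ℕ → ℤ√(-2)),
      FormalHecke.IsEigensystem
        (fun ℓ => if ℓ ∣ N then 0 else ((chiNegThree ℓ : ℤ) : ℤ√(-2))) b ∧
      CuspForm.IsWeightOneChiNegThreeRealized N b ∧
      ∀ p : ℕ, p.Prime → ¬ p ∣ 3 * N →
        ∀ A : ValuationSubring (AlgebraicClosure ℚ), A.LiesOverPrime p →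
          ∀ σ : Γℚ, A.IsFrobeniusAt σ p →
            b p = ((Ψ (ρ σ) : GL (Fin 2) (ℤ√(-2))) : Matrix (Fin 2) (Fin 2) (ℤ√(-2))).trace := by
  exact Fermat.Agent.LT.Chain.s47_of ρ hρ hsurj hdet Ψ hΨ
    (Fermat.Agent.LT.Psi.nonempty_psiOut hρ hsurj hdet _)
    (fun hζ => Fermat.Agent.LT.Spec.descent hζ)

end Fermat.Agent.S47
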