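import Fermat.Statements.S54
import Fermat.Agent.Frob.Basic

set_option autoImplicit false
open GaloisRep GaloisRep.DeformationRingData

namespace Fermat.Agent.S54

open scoped TensorProduct

/-- charpoly of a base change of a Galois representation -/
lemma charpoly_baseChangeAlong {A B : Type} [CommRing A] [IsLocalRing A] [CommRing B]
    [IsLocalRing B] (φ : A →+* B) (hφ : IsLocalHom φ) (ρ : GaloisRepAdic A)
    (σ : AlgebraicClosure ℚ ≃ₐ[ℚ] AlgebraicClosure ℚ) :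
    LinearMap.charpoly ((ρ.baseChangeAlong φ hφ).ρ σ) = (LinearMap.charpoly (ρ.ρ σ)).map φ := by
  let : Algebra A B := φ.toAlgebra
  exact LinearMap.charpoly_baseChange (ρ.ρ σ) B

lemma charpoly_eq_of_equiv {A : Type} [CommRing A] [IsLocalRing A] {ρ₁ ρ₂ : GaloisRepAdic A}
    (e : GaloisRepAdic.Equiv ρ₁ ρ₂) (σ : AlgebraicClosure ℚ ≃ₐ[ℚ] AlgebraicClosure ℚ) :
    LinearMap.charpoly (ρ₂.ρ σ) = LinearMap.charpoly (ρ₁.ρ σ) := by
  rw [← LinearEquiv.charpoly_conj e.toLinearEquiv]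
  congr 1
  ext x
  simp [LinearEquiv.conj_apply, e.map_apply]

theorem result {𝒪 : Type} [CommRing 𝒪] [IsDomain 𝒪] [IsDiscreteValuationRing 𝒪] [IsAdicComplete (IsLocalRing.maximalIdeal 𝒪) 𝒪] {ρbar : ResidualGaloisRep (IsLocalRing.ResidueField 𝒪)} {𝒟 : ∀ ⦃A : Type⦄ [CommRing A] [IsLocalRing A] [Algebra 𝒪 A], GaloisRepAdic A → Prop} (D : GaloisRep.DeformationRingData 𝒪 ρbar 𝒟) {N : ℕ} [NeZero N] {S : Set ℕ} {θ : CuspForm.heckeAlgebra N 2 S →+* IsLocalRing.ResidueField 𝒪} {T : Type} [CommRing T] [IsLocalRing T] [IsNoetherianRing T] [IsAdicComplete (IsLocalRing.maximalIdeal T) T] [Algebra 𝒪 T] [IsLocalHom (algebraMap 𝒪 T)] [Module.Finite 𝒪 T] [Module.Free 𝒪 T] (H : CuspForm.HeckeGaloisRepDatum N S 𝒪 θ T) (hS : ∀ q : ℕ, q.Prime → q ∣ N → q ∈ S) (h𝒟 : 𝒟 H.ρ) (hres : H.ρ.residual.IsEquiv (ρbar.baseChangeAlong (IsLocalRing.ResidueField.map (algebraMap 𝒪 T)))) : ∃ φ : D.R →ₐ[𝒪] T, Function.Surjective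 φ ∧ ∃ hφ : IsLocalHom (φ : D.R →+* T), (D.ρ.baseChangeAlong (φ : D.R →+* T) hφ).IsEquiv H.ρ := by
  obtain ⟨φ, ⟨hφ, ⟨e⟩⟩, -⟩ := D.universal T H.residue_surjective H.ρ h𝒟 hres
  refine ⟨φ, ?_, hφ, ⟨e⟩⟩
  -- the Hecke operators `T_ℓ` lie in the range of `φ`
  have hT : ∀ (ℓ : ℕ) (hℓ : ℓ.Prime) (hℓN : ¬ ℓ ∣ N) (hℓS : ℓ ∉ S),
      H.π (CuspForm.heckeAlgebra.T hℓ hℓN hℓS) ∈ φ.range := by
    intro ℓ hℓ hℓN hℓS
    obtain ⟨A, hA⟩ := Fermat.Agent.Frob.exists_liesOverPrime (AlgebraicClosure ℚ) hℓ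
    obtain ⟨σ, hσ⟩ := Fermat.Agent.Frob.exists_isFrobeniusAt A hℓ hA
    have h1 := H.charpoly_frob ℓ hℓ hℓN hℓS A hA σ hσ
    rw [charpoly_eq_of_equiv e, charpoly_baseChangeAlong] at h1
    have h2 := congrArg (fun p => Polynomial.coeff p 1) h1
    simp only [Polynomial.coeff_map, Polynomial.coeff_add, Polynomial.coeff_sub,
      Polynomial.coeff_X_pow, Polynomial.coeff_C_mul, Polynomial.coeff_X_one,
      Polynomial.coeff_C] at h2
    norm_num at h2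
    exact ⟨-((LinearMap.charpoly (D.ρ.ρ σ)).coeff 1), by
      change φ (-((LinearMap.charpoly (D.ρ.ρ σ)).coeff 1)) = _
      rw [map_neg, h2, neg_neg]⟩
  have key : ∀ t : CuspForm.heckeAlgebra N 2 S, H.π t ∈ φ.range := by
    let B : Subalgebra ℤ (CuspForm.heckeAlgebra N 2 S) :=
      subalgebraOfSubring (φ.range.toSubring.comap H.π)
    have hB : (⊤ : Subalgebra ℤ (CuspForm.heckeAlgebra N 2 S)) ≤ B := by
      have h1 : Algebra.adjoin ℤ ((Subtype.val : CuspForm.heckeAlgebra N 2 S → _) ⁻¹'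
          (CuspForm.heckeGenerators N 2 S)) = ⊤ :=
        Algebra.adjoin_adjoin_coe_preimage
      rw [← h1]
      refine Algebra.adjoin_le ?_
      rintro ⟨t, ht⟩ (⟨ℓ, hℓ, hℓN, hℓS, h⟩ | ⟨q, hqN, hq, hqS, h⟩)
      · have : (⟨t, ht⟩ : CuspForm.heckeAlgebra N 2 S) =
            CuspForm.heckeAlgebra.T hℓ hℓN hℓS := Subtype.ext h
        rw [this]
        exact hT ℓ hℓ hℓN hℓS
      · exact absurd (hS q hq hqN) hqS
    intro t
    exact hB (Algebra.mem_top (x := t))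
  have htop : φ.range = ⊤ := by
    rw [← top_le_iff, ← H.adjoin_range_π]
    refine Algebra.adjoin_le ?_
    rintro _ ⟨t, rfl⟩
    exact key t
  exact AlgHom.range_eq_top φ |>.1 htop

end Fermat.Agent.S54
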