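import Fermat.Statements.S57
import Fermat.Agent.CommAlg.RegularGlobalDim

set_option autoImplicit false
open Algebra Algebra.PatchingLevel

namespace Fermat.Agent.S57

section aux

open IsLocalRing Module RingTheory.Sequence

variable {𝒪 : Type} [CommRing 𝒪]
    {r : ℕ} {R : Type} [CommRing R] [Algebra 𝒪 R]
    {M : Type} [AddCommGroup M] [Module R M]
    (L : Algebra.PatchingLevel 𝒪 r R M ⊥)

/-- `N` is free over the power series ring through `φ`. -/
noncomputable def basisEquiv : (Fin L.d → MvPowerSeries (Fin r) 𝒪) ≃+ L.N :=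
  AddEquiv.ofBijective
    ({ toFun := fun c => ∑ i, L.φ (c i) • L.b i
       map_zero' := by simp
       map_add' := fun c c' => by simp [add_smul, Finset.sum_add_distrib] } :
      (Fin L.d → MvPowerSeries (Fin r) 𝒪) →+ L.N)
    ⟨by
      rw [injective_iff_map_eq_zero]
      intro c hc
      funext i
      have := (L.b_rel c).mp hc i
      simpa using this, fun x => by
      obtain ⟨c, hc⟩ := L.b_span x
      exact ⟨c, hc.symm⟩⟩

theorem basisEquiv_apply (c : Fin L.d → MvPowerSeries (Fin r) 𝒪) :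
    basisEquiv L c = ∑ i, L.φ (c i) • L.b i := rfl

theorem basisEquiv_smul (s : MvPowerSeries (Fin r) 𝒪) (c : Fin L.d → MvPowerSeries (Fin r) 𝒪) :
    basisEquiv L (s • c) = L.φ s • basisEquiv L c := by
  simp [basisEquiv_apply, Finset.smul_sum, mul_smul]

theorem finite_N : Module.Finite (MvPowerSeries (Fin r) 𝒪) L.N := by
  let f : (Fin L.d → MvPowerSeries (Fin r) 𝒪) →ₗ[MvPowerSeries (Fin r) 𝒪] L.N :=
    Fintype.linearCombination _ L.b
  refine Module.Finite.of_surjective f fun x => ?_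
  obtain ⟨c, hc⟩ := L.b_span x
  exact ⟨fun i => L.φ (c i), by rw [hc]; simp [f, Fintype.linearCombination_apply]⟩

theorem φ_X_mem [IsLocalRing 𝒪] [Nontrivial M] (i : Fin r) :
    L.φ (MvPowerSeries.X i) ∈ maximalIdeal (MvPowerSeries (Fin r) 𝒪) := by
  rw [mem_maximalIdeal, mem_nonunits_iff]
  intro hu
  have h1 : (Ideal.span (Set.range fun i : Fin r => L.φ (MvPowerSeries.X i))) = ⊤ :=
    Ideal.eq_top_of_isUnit_mem _ (Ideal.subset_span ⟨i, rfl⟩) hu
  have h2 : ∀ x : L.N, L.π x = 0 := fun x => by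
    rw [L.ker_π, h1]
    simp
  obtain ⟨m, hm⟩ := exists_ne (0 : M)
  obtain ⟨x, rfl⟩ := L.π_surjective m
  exact hm (h2 x)

theorem φ_C (a : 𝒪) : L.φ (MvPowerSeries.C a) = MvPowerSeries.C a := by
  have := L.φ.commutes a
  simpa [MvPowerSeries.algebraMap_apply] using this

theorem nontrivial_N [Nontrivial M] : Nontrivial L.N := L.π_surjective.nontrivial

theorem free_N [IsDomain 𝒪] [IsDiscreteValuationRing 𝒪] [Nontrivial M] : Module.Free (MvPowerSeries (Fin r) 𝒪) L.N := by
  obtain ⟨ϖ, hϖ⟩ := IsDiscreteValuationRing.exists_irreducible 𝒪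
  obtain ⟨rs, hlen, hreg, hmax, hmem⟩ :=
    Fermat.Agent.CommAlg.exists_regular_generators 𝒪 ϖ hϖ r
  have := finite_N L
  have := nontrivial_N L
  have hC : (MvPowerSeries.C ϖ : MvPowerSeries (Fin r) 𝒪) ∈
      maximalIdeal (MvPowerSeries (Fin r) 𝒪) := by
    rw [mem_maximalIdeal, mem_nonunits_iff, MvPowerSeries.isUnit_iff_constantCoeff]
    simpa using hϖ.not_isUnit
  have hreg' : IsWeaklyRegular (Fin L.d → MvPowerSeries (Fin r) 𝒪) rs := by
    have h1 := IsWeaklyRegular.isWeaklyRegular_rTensor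
      (M₂ := Fin L.d → MvPowerSeries (Fin r) 𝒪) hreg
    exact ((TensorProduct.lid _ _).isWeaklyRegular_congr rs).mp h1
  have hregN : IsWeaklyRegular L.N (rs.map L.φ) := by
    refine (AddEquiv.isWeaklyRegular_congr (e := basisEquiv L) ?_).mp hreg'
    exact List.forall₂_map_right_iff.mpr <| List.forall₂_same.mpr fun s _ x =>
      basisEquiv_smul L s x
  refine Fermat.Agent.CommAlg.free_of_regular_sequence rs hreg hmax L.N (rs.map L.φ) hregN ?_
    (by simp)
  intro a ha
  rw [List.mem_map] at ha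
  obtain ⟨x, hx, rfl⟩ := ha
  rcases hmem x hx with rfl | ⟨i, rfl⟩
  · rw [φ_C]
    exact hC
  · exact φ_X_mem L i

theorem mem_smul_top_iff_repr {S N ι : Type*} [CommRing S] [AddCommGroup N] [Module S N]
    [Fintype ι] (b : Module.Basis ι S N) (I : Ideal S) (x : N) :
    x ∈ I • (⊤ : Submodule S N) ↔ ∀ i, b.repr x i ∈ I := by
  constructor
  · intro hx i
    refine Submodule.smul_induction_on hx (fun a ha n _ => ?_) (fun x y hx hy => ?_)
    · rw [map_smul, Finsupp.smul_apply, smul_eq_mul]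
      exact I.mul_mem_right _ ha
    · rw [map_add, Finsupp.add_apply]
      exact I.add_mem hx hy
  · intro h
    rw [← b.sum_repr x]
    exact Submodule.sum_mem _ fun i _ => Submodule.smul_mem_smul (h i) trivial

end aux

theorem result
    {𝒪 : Type} [CommRing 𝒪] [IsDomain 𝒪] [IsDiscreteValuationRing 𝒪]
    {r : ℕ} {R : Type} [CommRing R] [Algebra 𝒪 R]
    {M : Type} [AddCommGroup M] [Module R M] [Nontrivial M]
    (L : Algebra.PatchingLevel 𝒪 r R M ⊥) :
    Module.Free R M ∧ Module.annihilator R M = ⊥ ∧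
      RingHom.ker L.ψ = Ideal.span (Set.range fun i : Fin r => L.φ (MvPowerSeries.X i)) := by
  have := finite_N L
  have := nontrivial_N L
  have := free_N L
  let I : Ideal (MvPowerSeries (Fin r) 𝒪) :=
    Ideal.span (Set.range fun i : Fin r => L.φ (MvPowerSeries.X i))
  let b := Module.finBasis (MvPowerSeries (Fin r) 𝒪) L.N
  have hd : Nonempty (Fin (Module.finrank (MvPowerSeries (Fin r) 𝒪) L.N)) := b.index_nonempty
  -- coordinates of elements of `I • ⊤`
  have hcoord : ∀ x : L.N, L.π x = 0 ↔ ∀ i, b.repr x i ∈ I := by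
    intro x
    rw [L.ker_π]
    exact mem_smul_top_iff_repr b I x
  have hker : RingHom.ker L.ψ = I := by
    apply le_antisymm
    · intro f hf
      rw [RingHom.mem_ker] at hf
      obtain ⟨i⟩ := hd
      have h1 : L.π (f • b i) = 0 := by
        rw [L.π_smul]
        simp [hf]
      have h2 := (hcoord _).mp h1 i
      simpa using h2
    · rw [Ideal.span_le]
      rintro _ ⟨i, rfl⟩
      exact L.ψ_φ_X i
  have hψ : ∀ s, L.ψ s = 0 ↔ s ∈ I := fun s => by rw [← hker, RingHom.mem_ker]
  obtain ⟨g, hg⟩ : ∃ g : R → MvPowerSeries (Fin r) 𝒪, ∀ x, L.ψ (g x) = x :=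
    ⟨fun x => (L.ψ_surjective x).choose, fun x => (L.ψ_surjective x).choose_spec⟩
  have hπsum : ∀ (c : Fin (Module.finrank (MvPowerSeries (Fin r) 𝒪) L.N) →
      MvPowerSeries (Fin r) 𝒪), L.π (∑ i, c i • b i) = ∑ i, L.ψ (c i) • L.π (b i) := by
    intro c
    rw [map_sum]
    exact Finset.sum_congr rfl fun i _ => L.π_smul _ _
  have hlin : LinearIndependent R (fun i => L.π (b i)) := by
    rw [Fintype.linearIndependent_iff]
    intro c hc i
    have h1 : L.π (∑ i, g (c i) • b i) = 0 := by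
      rw [hπsum]
      simpa [hg] using hc
    have h2 := (hcoord _).mp h1 i
    rw [b.repr_sum_self] at h2
    rw [← hg (c i)]
    exact (hψ _).mpr h2
  have hspan : ⊤ ≤ Submodule.span R (Set.range fun i => L.π (b i)) := by
    intro m _
    obtain ⟨x, rfl⟩ := L.π_surjective m
    rw [← b.sum_repr x, hπsum]
    exact Submodule.sum_mem _ fun i _ =>
      Submodule.smul_mem _ _ (Submodule.subset_span ⟨i, rfl⟩)
  refine ⟨Module.Free.of_basis (Module.Basis.mk hlin hspan), ?_, hker⟩
  rw [eq_bot_iff]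
  intro x hx
  rw [Module.mem_annihilator] at hx
  obtain ⟨i⟩ := hd
  rw [Submodule.mem_bot, ← hg x, hψ]
  have h1 : L.π (g x • b i) = 0 := by
    rw [L.π_smul, hg]
    exact hx _
  have h2 := (hcoord _).mp h1 i
  simpa using h2

end Fermat.Agent.S57
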